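/-
S45, project CARAYOL-K, block TAB2 (owner helper87), part (a) WINDOWS (helper64).

On helper117's `Tab.Tower`:
* `dd T k i : F 0 →+* F k`       `f(z) ↦ f(q^i z)`   (`i ≤ k`; junk `be^k` for `i > k`), `dB T k = dd T k k`;
* `sh T` : the tower shifted by one level;
* `w1 T n i : F 1 →+* F (n + 1)`, `w2 T n i : F 2 →+* F (n + 2)`   `f(z) ↦ f(q^i z)`   (`i ≤ n`);
* commutation rules (`al_dd`, `be_dd`, `w1_al`, `w1_be`, `w2_al`, `w2_be`), `xs_eq`, `dA_eq`;
* for a coherent system of tables (`Sys`): the restriction of `W k b` (type `F^(k-b) V^b`) along a window: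
  `comap_w1` (the letter number `i`), `comap_w2` (number of `V` among the letters `i`, `i + 1`), `comap_dd`.
-/
import Fermat.Agent.S45.Tab.TypAux

set_option autoImplicit false

noncomputable section

namespace Fermat.Agent.S45.Tab2

open Fermat.Agent.S18 Fermat.Agent.S45.Tab

section Maps

variable (T : Tower)

/-- `f(z) ↦ f(q^i z)`, from level `0` to level `k` (`i ≤ k`; junk `be^k` for `i > k`). -/
def dd : ∀ k : ℕ, ℕ → (T.F 0 →+* T.F k)
  | 0, _ => RingHom.id _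
  | k + 1, i => if i ≤ k then (T.al k).comp (dd k i) else (T.be k).comp (dd k k)

/-- `f(z) ↦ f(q^k z)`, from level `0` to level `k`. -/
def dB (k : ℕ) : T.F 0 →+* T.F k := dd T k k

theorem dd_zero (i : ℕ) (y : T.F 0) : dd T 0 i y = y := rfl

theorem al_dd {k i : ℕ} (hi : i ≤ k) (y : T.F 0) : T.al k (dd T k i y) = dd T (k + 1) i y := by
  rw [dd, if_pos hi]; rfl

theorem be_dd_self (k : ℕ) (y : T.F 0) : T.be k (dd T k k y) = dd T (k + 1) (k + 1) y := by
  rw [dd, if_neg (by omega)]; rfl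

theorem be_dd : ∀ {k i : ℕ}, i ≤ k → ∀ y : T.F 0, T.be k (dd T k i y) = dd T (k + 1) (i + 1) y
  | 0, i, hi, y => by
    obtain rfl : i = 0 := by omega
    exact be_dd_self T 0 y
  | k + 1, i, hi, y => by
    rcases Nat.lt_or_ge i (k + 1) with h | h
    · rw [← al_dd T (by omega : i ≤ k), T.comm, be_dd (by omega : i ≤ k), al_dd T (by omega)]
    · obtain rfl : i = k + 1 := by omega
      exact be_dd_self T (k + 1) y

theorem dB_succ (k : ℕ) (y : T.F 0) : dB T (k + 1) y = T.be k (dB T k y) :=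
  (be_dd_self T k y).symm

theorem dB_zero (y : T.F 0) : dB T 0 y = y := rfl

theorem dA_eq : ∀ (k : ℕ) (y : T.F 0), T.dA k y = dd T k 0 y
  | 0, _ => rfl
  | k + 1, y => by
    rw [← al_dd T (Nat.zero_le k), ← dA_eq k y]; rfl

theorem dA_succ (k : ℕ) (y : T.F 0) : T.dA (k + 1) y = T.al k (T.dA k y) := rfl

theorem xs_eq (x : T.F 0) : ∀ k i : ℕ, T.xs x k i = dd T k i x
  | 0, _ => rfl
  | k + 1, i => by
    rw [Tower.xs, dd]
    split_ifs with h
    · rw [xs_eq x k i]; rfl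
    · rw [xs_eq x k k]; rfl

/-- the tower shifted by one level -/
abbrev sh : Tower where
  F k := T.F (k + 1)
  al k := T.al (k + 1)
  be k := T.be (k + 1)
  comm k := T.comm (k + 1)

/-- `dd (sh T) n i ∘ al 0 = dd T (n + 1) i`. -/
theorem dd_sh_al : ∀ {n i : ℕ}, i ≤ n → ∀ y : T.F 0,
    dd (sh T) n i (T.al 0 y) = dd T (n + 1) i y
  | 0, i, hi, y => by
    obtain rfl : i = 0 := by omega
    exact al_dd T (le_refl 0) y
  | n + 1, i, hi, y => by
    rcases Nat.lt_or_ge i (n + 1) with h | h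
    · rw [← al_dd (sh T) (by omega : i ≤ n), dd_sh_al (by omega : i ≤ n)]
      exact al_dd T (by omega) y
    · obtain rfl : i = n + 1 := by omega
      rw [← be_dd_self (sh T) n, dd_sh_al (le_refl n)]
      exact be_dd T (by omega) y

/-- `dd (sh T) n i ∘ be 0 = dd T (n + 1) (i + 1)`. -/
theorem dd_sh_be : ∀ {n i : ℕ}, i ≤ n → ∀ y : T.F 0,
    dd (sh T) n i (T.be 0 y) = dd T (n + 1) (i + 1) y
  | 0, i, hi, y => by
    obtain rfl : i = 0 := by omega
    exact be_dd_self T 0 y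
  | n + 1, i, hi, y => by
    rcases Nat.lt_or_ge i (n + 1) with h | h
    · rw [← al_dd (sh T) (by omega : i ≤ n), dd_sh_be (by omega : i ≤ n)]
      exact al_dd T (by omega) y
    · obtain rfl : i = n + 1 := by omega
      rw [← be_dd_self (sh T) n, dd_sh_be (le_refl n)]
      exact be_dd_self T (n + 1) y

/-- `f(z) ↦ f(q^i z)`, from level `1` to level `n + 1` (`i ≤ n`). -/
def w1 (n i : ℕ) : T.F 1 →+* T.F (n + 1) := dd (sh T) n i

/-- `f(z) ↦ f(q^i z)`, from level `2` to level `n + 2` (`i ≤ n`). -/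
def w2 (n i : ℕ) : T.F 2 →+* T.F (n + 2) := dd (sh (sh T)) n i

theorem w1_zero (i : ℕ) (y : T.F 1) : w1 T 0 i y = y := rfl
theorem w2_zero (i : ℕ) (y : T.F 2) : w2 T 0 i y = y := rfl

theorem al_w1 {n i : ℕ} (hi : i ≤ n) (y : T.F 1) :
    T.al (n + 1) (w1 T n i y) = w1 T (n + 1) i y := al_dd (sh T) hi y

theorem be_w1 {n i : ℕ} (hi : i ≤ n) (y : T.F 1) :
    T.be (n + 1) (w1 T n i y) = w1 T (n + 1) (i + 1) y := be_dd (sh T) hi y

theorem al_w2 {n i : ℕ} (hi : i ≤ n) (y : T.F 2) :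
    T.al (n + 2) (w2 T n i y) = w2 T (n + 1) i y := al_dd (sh (sh T)) hi y

theorem be_w2 {n i : ℕ} (hi : i ≤ n) (y : T.F 2) :
    T.be (n + 2) (w2 T n i y) = w2 T (n + 1) (i + 1) y := be_dd (sh (sh T)) hi y

theorem w1_al {n i : ℕ} (hi : i ≤ n) (y : T.F 0) : w1 T n i (T.al 0 y) = dd T (n + 1) i y :=
  dd_sh_al T hi y

theorem w1_be {n i : ℕ} (hi : i ≤ n) (y : T.F 0) : w1 T n i (T.be 0 y) = dd T (n + 1) (i + 1) y :=
  dd_sh_be T hi y

theorem w2_al {n i : ℕ} (hi : i ≤ n) (y : T.F 1) : w2 T n i (T.al 1 y) = w1 T (n + 1) i y :=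
  dd_sh_al (sh T) hi y

theorem w2_be {n i : ℕ} (hi : i ≤ n) (y : T.F 1) :
    w2 T n i (T.be 1 y) = w1 T (n + 1) (i + 1) y := dd_sh_be (sh T) hi y

/-- **Windows, abstract form.**  `W k b` = the valuation of level `k + l` with `b` letters `V`. -/
theorem comap_dd_aux (l : ℕ) (W : ∀ k, ℕ → ValuationSubring (T.F k))
    (resA : ∀ k, ∀ b ≤ k + 1 + l, (W (k + 1) b).comap (T.al k) = W k (b - 1))
    (resB : ∀ k, ∀ b ≤ k + 1 + l, (W (k + 1) b).comap (T.be k) = W k (min b (k + l))) :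
    ∀ (k i b : ℕ), i ≤ k → b ≤ k + l → (W k b).comap (dd T k i) = W 0 (min l (i + b - k))
  | 0, i, b, hi, hb => by
    have h : min l (i + b - 0) = b := by omega
    rw [h]; rfl
  | k + 1, i, b, hi, hb => by
    rcases Nat.lt_or_ge i (k + 1) with h | h
    · have e : dd T (k + 1) i = (T.al k).comp (dd T k i) := by rw [dd, if_pos (by omega)]
      have h1 : (W (k + 1) b).comap (dd T (k + 1) i) =
          ((W (k + 1) b).comap (T.al k)).comap (dd T k i) := by rw [e]; rfl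
      rw [h1, resA k b (by omega), comap_dd_aux l W resA resB k i (b - 1) (by omega) (by omega)]
      congr 1; omega
    · obtain rfl : i = k + 1 := by omega
      have e : dd T (k + 1) (k + 1) = (T.be k).comp (dd T k k) := by rw [dd, if_neg (by omega)]
      have h1 : (W (k + 1) b).comap (dd T (k + 1) (k + 1)) =
          ((W (k + 1) b).comap (T.be k)).comap (dd T k k) := by rw [e]; rfl
      rw [h1, resB k b (by omega),
        comap_dd_aux l W resA resB k k (min b (k + l)) (le_refl k) (by omega)]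
      congr 1; omega

end Maps

section System

variable (T : Tower) (q : ℕ) (O : ValuationSubring (T.F 0)) (x : T.F 0)

/-- A coherent system of tables of all levels `k ≥ 1` (final export of TAB1). -/
def Sys (W : ∀ k, ℕ → ValuationSubring (T.F k)) (ϖ : ∀ k, ℕ → T.F k) : Prop :=
  ∀ k, 1 ≤ k → Pair T q O x k (W k) (ϖ k) (W (k + 1)) (ϖ (k + 1))

variable {T q O x} {W : ∀ k, ℕ → ValuationSubring (T.F k)} {ϖ : ∀ k, ℕ → T.F k}
  {ψ : ℕ → ℕ → ℤ}

theorem Sys.tab (P : Sys T q O x W ϖ) {k : ℕ} (hk : 1 ≤ k) : Table T q O x k (W k) (ϖ k) :=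
  (P k hk).tab

theorem Sys.compat (P : Sys T q O x W ϖ) {k : ℕ} (hk : 1 ≤ k) :
    Compat T k (W k) (ϖ k) (W (k + 1)) (ϖ (k + 1)) := (P k hk).compat

/-- `W (k + 2) b` has the type `b` in the sense of `Tab/Typ.lean`. -/
theorem Sys.hasType (P : Sys T q O x W ϖ) (k : ℕ) {b : ℕ} (hb : b ≤ k + 2) :
    HasType (W (k + 1)) b (W (k + 2) b) :=
  ⟨(P.compat (by omega : 1 ≤ k + 1)).resA b hb, (P.compat (by omega : 1 ≤ k + 1)).resB b hb⟩

/-- **The letter number `i`** of `F^(n+1-b) V^b` is `F` if `i + b ≤ n`, and `V` otherwise. -/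
theorem Sys.comap_w1 (P : Sys T q O x W ϖ) {n i b : ℕ} (hi : i ≤ n) (hb : b ≤ n + 1) :
    (W (n + 1) b).comap (w1 T n i) = W 1 (min 1 (i + b - n)) :=
  comap_dd_aux (sh T) 1 (fun k => W (k + 1))
    (fun k b hb => (P.compat (by omega : 1 ≤ k + 1)).resA b hb)
    (fun k b hb => (P.compat (by omega : 1 ≤ k + 1)).resB b hb) n i b hi hb

/-- **The window `(i, i + 1)`** of `F^(n+2-b) V^b`. -/
theorem Sys.comap_w2 (P : Sys T q O x W ϖ) {n i b : ℕ} (hi : i ≤ n) (hb : b ≤ n + 2) :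
    (W (n + 2) b).comap (w2 T n i) = W 2 (min 2 (i + b - n)) :=
  comap_dd_aux (sh (sh T)) 2 (fun k => W (k + 2))
    (fun k b hb => (P.compat (by omega : 1 ≤ k + 2)).resA b hb)
    (fun k b hb => (P.compat (by omega : 1 ≤ k + 2)).resB b hb) n i b hi hb

theorem Sys.comap_w1_F (P : Sys T q O x W ϖ) {n i b : ℕ} (hi : i + b ≤ n) :
    (W (n + 1) b).comap (w1 T n i) = W 1 0 := by
  rw [P.comap_w1 (by omega) (by omega)]; congr 1; omega

theorem Sys.comap_w1_V (P : Sys T q O x W ϖ) {n i b : ℕ} (hi : i ≤ n) (hb : b ≤ n + 1)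
    (h : n < i + b) : (W (n + 1) b).comap (w1 T n i) = W 1 1 := by
  rw [P.comap_w1 hi hb]; congr 1; omega

theorem Sys.comap_al0 (P : Sys T q O x W ϖ) {c : ℕ} (hc : c ≤ 1) : (W 1 c).comap (T.al 0) = O :=
  (P.tab (le_refl 1)).vert c hc

theorem Sys.comap_be0 (H : Hyp T q O x ψ) (P : Sys T q O x W ϖ) {c : ℕ} (hc : c ≤ 1) :
    (W 1 c).comap (T.be 0) = O := (H.vert1 _).1 (P.comap_al0 hc)

/-- every `W k b` is vertical along every `f(z) ↦ f(q^i z)`. -/
theorem Sys.comap_dd (H : Hyp T q O x ψ) (P : Sys T q O x W ϖ) {k i b : ℕ} (hk : 1 ≤ k)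
    (hi : i ≤ k) (hb : b ≤ k) : (W k b).comap (dd T k i) = O := by
  obtain ⟨n, rfl⟩ : ∃ n, k = n + 1 := ⟨k - 1, by omega⟩
  rcases Nat.lt_or_ge i (n + 1) with h | h
  · have e : dd T (n + 1) i = (w1 T n i).comp (T.al 0) :=
      RingHom.ext fun y => (w1_al T (by omega) y).symm
    have h1 : (W (n + 1) b).comap (dd T (n + 1) i) =
        ((W (n + 1) b).comap (w1 T n i)).comap (T.al 0) := by rw [e]; rfl
    rw [h1, P.comap_w1 (by omega) hb]
    exact P.comap_al0 (by omega)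
  · obtain rfl : i = n + 1 := by omega
    have e : dd T (n + 1) (n + 1) = (w1 T n n).comp (T.be 0) :=
      RingHom.ext fun y => (w1_be T (le_refl n) y).symm
    have h1 : (W (n + 1) b).comap (dd T (n + 1) (n + 1)) =
        ((W (n + 1) b).comap (w1 T n n)).comap (T.be 0) := by rw [e]; rfl
    rw [h1, P.comap_w1 (le_refl n) hb]
    exact P.comap_be0 H (by omega)

theorem Sys.comap_dB (H : Hyp T q O x ψ) (P : Sys T q O x W ϖ) {k b : ℕ} (hk : 1 ≤ k)
    (hb : b ≤ k) : (W k b).comap (dB T k) = O := P.comap_dd H hk (le_refl k) hb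

end System

end Fermat.Agent.S45.Tab2

end
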