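/-
S45, project CARAYOL-K, block TAB2 (owner helper87), part (b) DENSITY (helper64).

For a coherent system of tables (`Sys`, `Tab2/Win.lean`): the residue field of `W k b` (type `F^(k-b) V^b`) is
* the image of the residue field of `O` under `dA k = al^k` if `2 b ≤ k`   (`DenseA`),
* the image of the residue field of `O` under `dB k = be^k` if `k ≤ 2 b`   (`DenseB`).
Base (`DBase`): level `1` (`denseF`, `denseV`) and the middle component of level `2`.
Main results: `Sys.dense`, `Sys.denseA`, `Sys.denseB`.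
-/
import Fermat.Agent.S45.Tab2.Win
import Fermat.Agent.S45.Tab.StepMid
import Fermat.Agent.S45.Tab.StepLo
import Fermat.Agent.S45.Tab.StepHi

set_option autoImplicit false

noncomputable section

namespace Fermat.Agent.S45.Tab2

open Fermat.Agent.S18 Fermat.Agent.S36 Fermat.Agent.S45.Tab

/-- the residue field of `V` is the image of `dA k`. -/
def DenseA (T : Tower) (k : ℕ) (V : ValuationSubring (T.F k)) : Prop :=
  ∀ y ∈ V, ∃ y' : T.F 0, V.valuation (T.dA k y' - y) < 1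

/-- the residue field of `V` is the image of `dB k`. -/
def DenseB (T : Tower) (k : ℕ) (V : ValuationSubring (T.F k)) : Prop :=
  ∀ y ∈ V, ∃ y' : T.F 0, V.valuation (dB T k y' - y) < 1

/-- the base of the induction (block MOD: `Mod.Tower.Base.denseF, denseV, dense21a, dense21b`). -/
structure DBase (T : Tower) (W : ∀ k, ℕ → ValuationSubring (T.F k)) : Prop where
  denseF : DenseA T 1 (W 1 0)
  denseV : DenseB T 1 (W 1 1)
  midA : DenseA T 2 (W 2 1)
  midB : DenseB T 2 (W 2 1)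

variable {T : Tower} {q : ℕ} {O : ValuationSubring (T.F 0)} {x : T.F 0} {ψ : ℕ → ℕ → ℤ}
  {W : ∀ k, ℕ → ValuationSubring (T.F k)} {ϖ : ∀ k, ℕ → T.F k}

theorem mem_of_cong {F : Type*} [Field F] {V : ValuationSubring F} {a b : F}
    (h : BP.Cong V a b) (hb : b ∈ V) : a ∈ V :=
  (V.valuation_le_one_iff _).1 (h.le_one ((V.valuation_le_one_iff _).2 hb))

theorem co_cong {F₁ F : Type*} [Field F₁] [Field F] {φ : F₁ →+* F} {U : ValuationSubring F₁}
    {V : ValuationSubring F} (h : V.comap φ = U) {a b : F₁} (hab : BP.Cong U a b) :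
    BP.Cong V (φ a) (φ b) := by
  have := (co_lt_one_iff h (a - b)).2 hab
  rwa [map_sub] at this

/-- **`a > b`**: purely inseparable along `be`. -/
theorem Sys.denseA_lo (H : Hyp T q O x ψ) (P : Sys T q O x W ϖ) (B : DenseA T 1 (W 1 0))
    {k b : ℕ} (h2 : 2 * b < k + 2) (ih : DenseA T (k + 1) (W (k + 1) b)) :
    DenseA T (k + 2) (W (k + 2) b) := by
  have hb1 : b ≤ k + 1 := by omega
  have hb : b ≤ k + 2 := by omega
  have hlo : 2 * b ≤ k + 1 := by omega
  have D : Table T q O x (k + 1) (W (k + 1)) (ϖ (k + 1)) := P.tab (by omega)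
  have h := P.hasType k hb
  have hB : (W (k + 2) b).comap (T.be (k + 1)) = W (k + 1) b := by
    have := h.2
    rwa [min_eq_left hb1] at this
  have hy₀ : T.xs x (k + 2) 0 ∈ W (k + 2) b := h.xmem D hb (Nat.zero_le _)
  have hφc : T.be (k + 1) (T.xs x (k + 1) 0) = T.xs x (k + 2) 1 :=
    be_xs T x (k + 1) 0 (Nat.zero_le _)
  have hc : (W (k + 2) b).valuation (T.be (k + 1) (T.xs x (k + 1) 0) - T.xs x (k + 2) 0 ^ q) < 1 := by
    rw [hφc]
    exact h.first D (by omega)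
  have hn : ∀ y' : T.F (k + 1),
      ¬ (W (k + 2) b).valuation (T.be (k + 1) y' - T.xs x (k + 2) 0) < 1 := by
    intro y' hy'
    have hy₀1 : (W (k + 2) b).valuation (T.xs x (k + 2) 0) ≤ 1 :=
      ((W (k + 2) b).valuation_le_one_iff _).2 hy₀
    have h1 : BP.Cong (W (k + 2) b) (T.be (k + 1) y') (T.xs x (k + 2) 0) := hy'
    have hy'U : y' ∈ W (k + 1) b := (co_mem_iff hB y').1 (mem_of_cong h1 hy₀)
    have h3 : BP.Cong (W (k + 2) b) (T.be (k + 1) y' ^ q) (T.be (k + 1) (T.xs x (k + 1) 0)) :=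
      (h1.pow hy₀1 q).trans (BP.Cong.symm hc)
    have h4 : (W (k + 2) b).valuation (T.be (k + 1) (y' ^ q - T.xs x (k + 1) 0)) < 1 := by
      rw [map_sub, map_pow]
      exact h3
    exact D.lo b hb1 hlo y' hy'U ((co_lt_one_iff hB _).1 h4)
  have hw : (W (k + 2) b).comap (w1 T (k + 1) 0) = W 1 0 := P.comap_w1_F (by omega)
  intro y hy
  obtain ⟨t, ⟨y', rfl⟩, ht⟩ := insep_dense (T.be (k + 1)) H.prime (H.degB (k + 1) (by omega))
    (D.unif b hb1) (D.q_lt_one hb1) hB hy₀ hc hn (T.dA (k + 2)).range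
    ⟨x, dA_x T x (k + 2)⟩ (fun d hd => by
      obtain ⟨r, hr⟩ := ih d hd
      have h1 : BP.Cong (W (k + 2) b) (T.be (k + 1) (T.dA (k + 1) r)) (T.be (k + 1) d) :=
        co_cong hB hr
      have e1 : T.be (k + 1) (T.dA (k + 1) r) = w1 T (k + 1) 0 (T.be 0 r) := by
        rw [dA_eq, be_dd T (Nat.zero_le _), w1_be T (Nat.zero_le _)]
      have hm : T.be 0 r ∈ W 1 0 := by
        rw [← co_mem_iff hw, ← e1]
        exact mem_of_cong h1 ((co_mem_iff hB d).2 hd)
      obtain ⟨r', hr'⟩ := B _ hm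
      have h2 : BP.Cong (W (k + 2) b) (w1 T (k + 1) 0 (T.dA 1 r')) (w1 T (k + 1) 0 (T.be 0 r)) :=
        co_cong hw hr'
      have e2 : w1 T (k + 1) 0 (T.dA 1 r') = T.dA (k + 2) r' := by
        rw [dA_eq T (k + 2), ← w1_al T (Nat.zero_le _)]; rfl
      refine ⟨_, ⟨r', rfl⟩, ?_⟩
      rw [e1] at h1
      rw [e2] at h2
      exact h1.symm.trans h2.symm) hy
  exact ⟨y', ht⟩

/-- **`b > a`**: purely inseparable along `al`. -/
theorem Sys.denseB_hi (H : Hyp T q O x ψ) (P : Sys T q O x W ϖ) (B : DenseB T 1 (W 1 1))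
    {k b : ℕ} (hb : b ≤ k + 2) (h2 : k + 2 < 2 * b) (ih : DenseB T (k + 1) (W (k + 1) (b - 1))) :
    DenseB T (k + 2) (W (k + 2) b) := by
  have hb1 : b - 1 ≤ k + 1 := by omega
  have hhi : k + 1 ≤ 2 * (b - 1) := by omega
  have D : Table T q O x (k + 1) (W (k + 1)) (ϖ (k + 1)) := P.tab (by omega)
  have h := P.hasType k hb
  have hA : (W (k + 2) b).comap (T.al (k + 1)) = W (k + 1) (b - 1) := h.1
  have hy₀ : T.xs x (k + 2) (k + 2) ∈ W (k + 2) b := h.xmem D hb le_rfl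
  have hφc : T.al (k + 1) (T.xs x (k + 1) (k + 1)) = T.xs x (k + 2) (k + 1) :=
    al_xs T x (k + 1) (k + 1) le_rfl
  have hc : (W (k + 2) b).valuation
      (T.al (k + 1) (T.xs x (k + 1) (k + 1)) - T.xs x (k + 2) (k + 2) ^ q) < 1 := by
    rw [hφc]
    exact h.last D hb (by omega)
  have hn : ∀ y' : T.F (k + 1),
      ¬ (W (k + 2) b).valuation (T.al (k + 1) y' - T.xs x (k + 2) (k + 2)) < 1 := by
    intro y' hy'
    have hy₀1 : (W (k + 2) b).valuation (T.xs x (k + 2) (k + 2)) ≤ 1 :=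
      ((W (k + 2) b).valuation_le_one_iff _).2 hy₀
    have h1 : BP.Cong (W (k + 2) b) (T.al (k + 1) y') (T.xs x (k + 2) (k + 2)) := hy'
    have hy'U : y' ∈ W (k + 1) (b - 1) := (co_mem_iff hA y').1 (mem_of_cong h1 hy₀)
    have h3 : BP.Cong (W (k + 2) b) (T.al (k + 1) y' ^ q)
        (T.al (k + 1) (T.xs x (k + 1) (k + 1))) := (h1.pow hy₀1 q).trans (BP.Cong.symm hc)
    have h4 : (W (k + 2) b).valuation (T.al (k + 1) (y' ^ q - T.xs x (k + 1) (k + 1))) < 1 := by
      rw [map_sub, map_pow]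
      exact h3
    exact D.hi (b - 1) hb1 hhi y' hy'U ((co_lt_one_iff hA _).1 h4)
  have hw : (W (k + 2) b).comap (w1 T (k + 1) (k + 1)) = W 1 1 :=
    P.comap_w1_V le_rfl hb (by omega)
  intro y hy
  obtain ⟨t, ⟨y', rfl⟩, ht⟩ := insep_dense (T.al (k + 1)) H.prime (H.degA (k + 1) (by omega))
    (D.unif (b - 1) hb1) (D.q_lt_one hb1) hA hy₀ hc hn (dB T (k + 2)).range
    ⟨x, (xs_eq T x (k + 2) (k + 2)).symm⟩ (fun d hd => by
      obtain ⟨r, hr⟩ := ih d hd
      have h1 : BP.Cong (W (k + 2) b) (T.al (k + 1) (dB T (k + 1) r)) (T.al (k + 1) d) :=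
        co_cong hA hr
      have e1 : T.al (k + 1) (dB T (k + 1) r) = w1 T (k + 1) (k + 1) (T.al 0 r) := by
        rw [dB, al_dd T le_rfl, w1_al T le_rfl]
      have hm : T.al 0 r ∈ W 1 1 := by
        rw [← co_mem_iff hw, ← e1]
        exact mem_of_cong h1 ((co_mem_iff hA d).2 hd)
      obtain ⟨r', hr'⟩ := B _ hm
      have h2 : BP.Cong (W (k + 2) b) (w1 T (k + 1) (k + 1) (dB T 1 r'))
          (w1 T (k + 1) (k + 1) (T.al 0 r)) := co_cong hw hr'
      have e2 : w1 T (k + 1) (k + 1) (dB T 1 r') = dB T (k + 2) r' := by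
        rw [dB_succ, dB_zero, w1_be T le_rfl]; rfl
      refine ⟨_, ⟨r', rfl⟩, ?_⟩
      rw [e1] at h1
      rw [e2] at h2
      exact h1.symm.trans h2.symm) hy
  exact ⟨y', ht⟩

/-- **`a = b ≥ 2`**, along `al`. -/
theorem Sys.denseA_mid (H : Hyp T q O x ψ) (P : Sys T q O x W ϖ) {k b : ℕ} (hk : 1 ≤ k)
    (h2 : k + 2 = 2 * b) (ih : DenseA T (k + 1) (W (k + 1) (b - 1))) :
    DenseA T (k + 2) (W (k + 2) b) := by
  have hb : b ≤ k + 2 := by omega
  have h := P.hasType k hb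
  have hA : (W (k + 2) b).comap (T.al (k + 1)) = W (k + 1) (b - 1) := h.1
  obtain ⟨hR, -⟩ := stepMid H hk (P k hk) h2 h
  intro y hy
  obtain ⟨y', hy'⟩ := hR.dense y hy
  have hy'U : y' ∈ W (k + 1) (b - 1) := (co_mem_iff hA y').1 (mem_of_cong (a := T.al (k + 1) y') hy' hy)
  obtain ⟨r, hr⟩ := ih y' hy'U
  exact ⟨r, BP.Cong.trans (V := W (k + 2) b) (co_cong hA hr) hy'⟩

/-- **`a = b ≥ 2`**, along `be`. -/
theorem Sys.denseB_mid (H : Hyp T q O x ψ) (P : Sys T q O x W ϖ) {k b : ℕ} (hk : 1 ≤ k)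
    (h2 : k + 2 = 2 * b) (ih : DenseB T (k + 1) (W (k + 1) b)) :
    DenseB T (k + 2) (W (k + 2) b) := by
  have hb : b ≤ k + 2 := by omega
  have hb1 : b ≤ k + 1 := by omega
  have D : Table T q O x (k + 1) (W (k + 1)) (ϖ (k + 1)) := P.tab (by omega)
  have h := P.hasType k hb
  have hA : (W (k + 2) b).comap (T.al (k + 1)) = W (k + 1) (b - 1) := h.1
  have hB : (W (k + 2) b).comap (T.be (k + 1)) = W (k + 1) b := by
    have := h.2
    rwa [min_eq_left hb1] at this
  obtain ⟨-, -, -, -, hz⟩ := stepMid H hk (P k hk) h2 h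
  -- the two uniformisers of level `k + 1` have the same image
  have hs : T.be (k + 1) (ϖ (k + 1) b) = T.al (k + 1) (ϖ (k + 1) (b - 1)) := by
    rw [(P.compat hk).unifA b hb1 (by omega), (P.compat hk).unifB (b - 1) (by omega) (by omega),
      T.comm]
  have hs0 : T.al (k + 1) (ϖ (k + 1) (b - 1)) ≠ 0 :=
    (map_ne_zero _).2 (D.unif (b - 1) (by omega)).ne_zero
  have hz1 : (W (k + 2) b).valuation ((T.xs x (k + 2) (k + 2) - T.xs x (k + 2) 0) ^ q /
      T.al (k + 1) (ϖ (k + 1) (b - 1))) = 1 :=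
    BP.Cong.eq_one (V := W (k + 2) b) hz (map_one _)
  have hz2 : (W (k + 2) b).valuation (T.xs x (k + 2) (k + 2) - T.xs x (k + 2) 0) ^ q =
      (W (k + 2) b).valuation (T.be (k + 1) (ϖ (k + 1) b)) := by
    rw [hs]
    rw [map_div₀, map_pow] at hz1
    exact (div_eq_one_iff_eq ((Valuation.ne_zero_iff _).2 hs0)).1 hz1
  intro y hy
  obtain ⟨y', hy'⟩ := ram_dense (T.be (k + 1)) H.prime (H.degB (k + 1) (by omega))
    (D.unif b hb1) hB hz2 hy
  have hy'U : y' ∈ W (k + 1) b := (co_mem_iff hB y').1 (mem_of_cong (a := T.be (k + 1) y') hy' hy)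
  obtain ⟨r, hr⟩ := ih y' hy'U
  refine ⟨r, ?_⟩
  rw [dB_succ]
  exact BP.Cong.trans (V := W (k + 2) b) (co_cong hB hr) hy'

/-- **DENSITY.** -/
theorem Sys.dense (H : Hyp T q O x ψ) (P : Sys T q O x W ϖ) (B : DBase T W) :
    ∀ k, 1 ≤ k → ∀ b ≤ k, (2 * b ≤ k → DenseA T k (W k b)) ∧ (k ≤ 2 * b → DenseB T k (W k b))
  | 0, hk, _, _ => by omega
  | 1, _, b, hb => by
    refine ⟨fun h => ?_, fun h => ?_⟩
    · obtain rfl : b = 0 := by omega
      exact B.denseF
    · obtain rfl : b = 1 := by omega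
      exact B.denseV
  | k + 2, _, b, hb => by
    have ih := Sys.dense H P B (k + 1) (by omega)
    refine ⟨fun h => ?_, fun h => ?_⟩
    · rcases Nat.lt_or_ge (2 * b) (k + 2) with h' | h'
      · exact P.denseA_lo H B.denseF h' ((ih b (by omega)).1 (by omega))
      · rcases Nat.eq_zero_or_pos k with rfl | hk
        · obtain rfl : b = 1 := by omega
          exact B.midA
        · exact P.denseA_mid H hk (by omega) ((ih (b - 1) (by omega)).1 (by omega))
    · rcases Nat.lt_or_ge (k + 2) (2 * b) with h' | h'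
      · exact P.denseB_hi H B.denseV hb h' ((ih (b - 1) (by omega)).2 (by omega))
      · rcases Nat.eq_zero_or_pos k with rfl | hk
        · obtain rfl : b = 1 := by omega
          exact B.midB
        · exact P.denseB_mid H hk (by omega) ((ih b (by omega)).2 (by omega))

theorem Sys.denseA (H : Hyp T q O x ψ) (P : Sys T q O x W ϖ) (B : DBase T W) {k b : ℕ}
    (hk : 1 ≤ k) (h : 2 * b ≤ k) : DenseA T k (W k b) := (P.dense H B k hk b (by omega)).1 h

theorem Sys.denseB (H : Hyp T q O x ψ) (P : Sys T q O x W ϖ) (B : DBase T W) {k b : ℕ}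
    (hk : 1 ≤ k) (hb : b ≤ k) (h : k ≤ 2 * b) : DenseB T k (W k b) := (P.dense H B k hk b hb).2 h

end Fermat.Agent.S45.Tab2

end
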